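/-
NEWFORM library (helper443) — linear algebra for STRONG MULTIPLICITY ONE.

`exists_eigenvector_of_equivariant`:  let `S i` be commuting endomorphisms of a finite-dimensional
space `V`, `T i` endomorphisms of `W`, `Φ : V → W` an equivariant linear map.  If a NONZERO
simultaneous eigenvector `h` of the `T i` (eigenvalues `a i`) lies in the range of `Φ`, then the
`S i` have a nonzero simultaneous eigenvector in `V` with the SAME eigenvalues `a i`.
(No hypothesis on the field: the eigenvalues are given.)

`exists_eigenvector_of_equivariant_family`: the same for a finite family `Φ j : V j → W`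
and `h ∈ ⨆ j, range (Φ j)`: the eigensystem occurs in one of the `V j`.

Intended use: `V j = S_2(Γ₀(N/q))` (two copies per prime `q ∣ N`), `Φ j` = degeneracy maps,
`W = S_2(Γ₀(N))`, `T i = T_ℓ` for `ℓ ∤ N`:  an eigenvector in the old space has its eigensystem
at a lower level.
-/
import Mathlib

set_option autoImplicit false

namespace Fermat.Agent.Lib.Newform.H443

open Module

section LemmaA

variable {K V ι : Type*} [Field K] [AddCommGroup V] [Module K V]

/-- Commuting operators `S i` on a nonzero finite-dimensional stable subspace `U` on which every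
`S i - a i` is locally nilpotent have a common eigenvector in `U` with eigenvalues `a i`. -/
theorem exists_common_eigenvector_of_locally_nilpotent
    (S : ι → Module.End K V) (hS : ∀ i j, Commute (S i) (S j)) (a : ι → K) :
    ∀ (U : Submodule K V), FiniteDimensional K U → U ≠ ⊥ → (∀ i, ∀ v ∈ U, S i v ∈ U) →
      (∀ i, ∀ v ∈ U, ∃ n : ℕ, ((S i - a i • (1 : Module.End K V)) ^ n) v = 0) →
      ∃ v ∈ U, v ≠ 0 ∧ ∀ i, S i v = a i • v := by
  intro U
  induction hd : finrank K U using Nat.strong_induction_on generalizing U with
  | _ d ih =>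
    intro hfin hU hstab hnil
    by_cases hall : ∀ i, ∀ v ∈ U, S i v = a i • v
    · obtain ⟨v, hv, hv0⟩ := Submodule.exists_mem_ne_zero_of_ne_bot hU
      exact ⟨v, hv, hv0, fun i => hall i v hv⟩
    · push Not at hall
      obtain ⟨i, v₀, hv₀U, hv₀⟩ := hall
      set Ni : Module.End K V := S i - a i • (1 : Module.End K V) with hNi
      have hNi_apply : ∀ v, Ni v = S i v - a i • v := fun v => by simp [hNi]
      have hNiU : ∀ v ∈ U, Ni v ∈ U := fun v hv => by
        rw [hNi_apply]; exact U.sub_mem (hstab i v hv) (U.smul_mem _ hv)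
      have hNipowU : ∀ n : ℕ, ∀ v ∈ U, (Ni ^ n) v ∈ U := by
        intro n
        induction n with
        | zero => intro v hv; simpa using hv
        | succ n ihn =>
          intro v hv
          rw [pow_succ', Module.End.mul_apply]
          exact hNiU _ (ihn v hv)
      -- the subspace `U ⊓ ker Ni`
      set U' : Submodule K V := U ⊓ LinearMap.ker Ni with hU'
      have hU'le : U' ≤ U := inf_le_left
      -- it is nonzero
      have hU'ne : U' ≠ ⊥ := by
        classical
        have hex : ∃ n : ℕ, (Ni ^ n) v₀ = 0 := hnil i v₀ hv₀U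
        have hv₀ne : v₀ ≠ 0 := by
          rintro rfl
          exact hv₀ (by simp)
        have hn0 : Nat.find hex ≠ 0 := by
          intro h0
          have := Nat.find_spec hex
          rw [h0] at this
          exact hv₀ne (by simpa using this)
        obtain ⟨m, hm⟩ := Nat.exists_eq_succ_of_ne_zero hn0
        have hmin : (Ni ^ m) v₀ ≠ 0 := Nat.find_min hex (by omega)
        have hker : Ni ((Ni ^ m) v₀) = 0 := by
          have := Nat.find_spec hex
          rw [hm, Nat.succ_eq_add_one, pow_succ', Module.End.mul_apply] at this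
          exact this
        intro hbot
        have hmem : (Ni ^ m) v₀ ∈ U' :=
          Submodule.mem_inf.mpr ⟨hNipowU m v₀ hv₀U, LinearMap.mem_ker.mpr hker⟩
        rw [hbot] at hmem
        exact hmin (by simpa using hmem)
      -- it is stable
      have hcomm : ∀ j, Commute (S j) Ni := fun j =>
        ((hS j i).sub_right ((Commute.one_right (S j)).smul_right (a i)))
      have hU'stab : ∀ j, ∀ v ∈ U', S j v ∈ U' := by
        intro j v hv
        have hv' := Submodule.mem_inf.mp hv
        refine Submodule.mem_inf.mpr ⟨hstab j v hv'.1, ?_⟩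
        have h1 : Ni (S j v) = S j (Ni v) := by
          have := congrArg (fun f : Module.End K V => f v) (hcomm j).eq
          simpa [Module.End.mul_apply] using this.symm
        have h2 : Ni v = 0 := LinearMap.mem_ker.mp hv'.2
        rw [LinearMap.mem_ker, h1, h2, map_zero]
      -- it is proper
      have hv₀U' : v₀ ∉ U' := by
        intro hmem
        have h2 : Ni v₀ = 0 := LinearMap.mem_ker.mp (Submodule.mem_inf.mp hmem).2
        rw [hNi_apply, sub_eq_zero] at h2
        exact hv₀ h2
      have hlt : finrank K U' < finrank K U := by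
        apply Submodule.finrank_lt_finrank_of_lt
        exact lt_of_le_of_ne hU'le (fun heq => hv₀U' (heq ▸ hv₀U))
      have hfin' : FiniteDimensional K U' := Submodule.finiteDimensional_of_le hU'le
      obtain ⟨v, hv, hv0, hveig⟩ := ih (finrank K U') (hd ▸ hlt) U' rfl hfin' hU'ne hU'stab
        (fun j v hv => hnil j v (hU'le hv))
      exact ⟨v, hU'le hv, hv0, hveig⟩

end LemmaA

section LemmaB

variable {K V W ι : Type*} [Field K] [AddCommGroup V] [Module K V] [FiniteDimensional K V]
  [AddCommGroup W] [Module K W]

/-- **Eigenvector descent.**  If a nonzero simultaneous eigenvector `h` of the `T i` lies in the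
range of an equivariant map `Φ : V → W` (`V` finite-dimensional, the `S i` commuting), then the
same eigensystem occurs in `V`. -/
theorem exists_eigenvector_of_equivariant
    (S : ι → Module.End K V) (T : ι → Module.End K W) (hS : ∀ i j, Commute (S i) (S j))
    (Φ : V →ₗ[K] W) (hΦ : ∀ i v, Φ (S i v) = T i (Φ v))
    (a : ι → K) {h : W} (hh : h ≠ 0) (hmem : h ∈ LinearMap.range Φ)
    (heig : ∀ i, T i h = a i • h) :
    ∃ v : V, v ≠ 0 ∧ ∀ i, S i v = a i • v := by
  classical
  -- the predicate on subspaces
  let Q : Submodule K V → Prop := fun U =>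
    (∀ i, ∀ v ∈ U, S i v ∈ U) ∧ (∀ v ∈ U, ∃ c : K, Φ v = c • h) ∧ (∃ u ∈ U, Φ u = h)
  have hQV : Q ((Submodule.span K {h}).comap Φ) := by
    refine ⟨?_, ?_, ?_⟩
    · intro i v hv
      rw [Submodule.mem_comap, Submodule.mem_span_singleton] at hv ⊢
      obtain ⟨c, hc⟩ := hv
      exact ⟨c * a i, by rw [hΦ, ← hc, map_smul, heig, smul_smul]⟩
    · intro v hv
      rw [Submodule.mem_comap, Submodule.mem_span_singleton] at hv
      obtain ⟨c, hc⟩ := hv
      exact ⟨c, hc.symm⟩
    · obtain ⟨u, hu⟩ := hmem
      exact ⟨u, by rw [Submodule.mem_comap, hu]; exact Submodule.mem_span_singleton_self h, hu⟩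
  have hex : ∃ d : ℕ, ∃ U : Submodule K V, Q U ∧ finrank K U = d := ⟨_, _, hQV, rfl⟩
  obtain ⟨U, hQU, hUd⟩ := Nat.find_spec hex
  have hmin : ∀ U' : Submodule K V, Q U' → finrank K U ≤ finrank K U' := by
    intro U' hQU'
    rw [hUd]
    exact Nat.find_min' hex ⟨U', hQU', rfl⟩
  obtain ⟨hstab, hline, u, huU, hu⟩ := hQU
  have hUne : U ≠ ⊥ := by
    intro hbot
    rw [hbot, Submodule.mem_bot] at huU
    rw [huU, map_zero] at hu
    exact hh hu.symm
  -- local nilpotency on `U`
  have hnil : ∀ i, ∀ v ∈ U, ∃ n : ℕ, ((S i - a i • (1 : Module.End K V)) ^ n) v = 0 := by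
    intro i
    set Ni : Module.End K V := S i - a i • (1 : Module.End K V) with hNi
    have hNi_apply : ∀ v, Ni v = S i v - a i • v := fun v => by simp [hNi]
    have hNiU : ∀ v ∈ U, Ni v ∈ U := fun v hv => by
      rw [hNi_apply]; exact U.sub_mem (hstab i v hv) (U.smul_mem _ hv)
    have hΦNi : ∀ v ∈ U, Φ (Ni v) = 0 := by
      intro v hv
      obtain ⟨c, hc⟩ := hline v hv
      rw [hNi_apply, map_sub, hΦ, map_smul, hc, map_smul, heig, smul_comm, sub_self]
    -- the restriction and its Fitting decomposition
    let f : Module.End K U := Ni.restrict hNiU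
    have hfit : IsCompl (⨆ n : ℕ, LinearMap.ker (f ^ n)) (⨅ n : ℕ, LinearMap.range (f ^ n)) :=
      LinearMap.isCompl_iSup_ker_pow_iInf_range_pow f
    have hfpow : ∀ (n : ℕ) (x : U), ((f ^ n) x : V) = (Ni ^ n) (x : V) := by
      intro n
      induction n with
      | zero => intro x; simp
      | succ n ihn =>
        intro x
        rw [pow_succ', pow_succ', Module.End.mul_apply, Module.End.mul_apply]
        show Ni ((f ^ n) x : V) = _
        rw [ihn]
    -- the generalised kernel, as a subspace of `V`
    let U₁ : Submodule K V := U ⊓ Module.End.maxGenEigenspace (S i) (a i)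
    have hU₁le : U₁ ≤ U := inf_le_left
    have hcomm : ∀ j, Commute (S j) Ni := fun j =>
      ((hS j i).sub_right ((Commute.one_right (S j)).smul_right (a i)))
    have hQU₁ : Q U₁ := by
      refine ⟨?_, fun v hv => hline v (hU₁le hv), ?_⟩
      · intro j v hv
        have hv' := Submodule.mem_inf.mp hv
        refine Submodule.mem_inf.mpr ⟨hstab j v hv'.1, ?_⟩
        have hv2 := hv'.2
        rw [Module.End.mem_maxGenEigenspace] at hv2 ⊢
        obtain ⟨n, hn⟩ := hv2
        refine ⟨n, ?_⟩
        have h1 : (Ni ^ n) (S j v) = S j ((Ni ^ n) v) := by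
          have := congrArg (fun g : Module.End K V => g v) ((hcomm j).pow_right n).eq
          simpa [Module.End.mul_apply] using this.symm
        change (Ni ^ n) (S j v) = 0
        rw [h1]
        have hn' : (Ni ^ n) v = 0 := hn
        rw [hn', map_zero]
      · -- decompose `u`
        have htop := hfit.sup_eq_top
        have hu' : (⟨u, huU⟩ : U) ∈ (⨆ n : ℕ, LinearMap.ker (f ^ n)) ⊔
            (⨅ n : ℕ, LinearMap.range (f ^ n)) := by rw [htop]; trivial
        obtain ⟨x, hx, y, hy, hxy⟩ := Submodule.mem_sup.mp hu'
        -- `y` is in the range of `f`, so `Φ y = 0`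
        have hy1 : y ∈ LinearMap.range (f ^ 1) := (Submodule.mem_iInf _).mp hy 1
        obtain ⟨w, hw⟩ := hy1
        have hΦy : Φ (y : V) = 0 := by
          rw [← hw, pow_one]
          exact hΦNi w w.2
        -- `x` is in the generalised kernel
        have hxn : ∃ n : ℕ, (f ^ n) x = 0 := by
          have hmono : Monotone (fun n : ℕ => LinearMap.ker (f ^ n)) := by
            intro m n hmn z hz
            rw [LinearMap.mem_ker] at hz ⊢
            obtain ⟨k, rfl⟩ := Nat.exists_eq_add_of_le hmn
            rw [add_comm, pow_add, Module.End.mul_apply, hz, map_zero]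
          have := (Submodule.mem_iSup_of_directed _ (Monotone.directed_le hmono)).mp hx
          obtain ⟨n, hn⟩ := this
          exact ⟨n, hn⟩
        obtain ⟨n, hn⟩ := hxn
        refine ⟨(x : V), Submodule.mem_inf.mpr ⟨x.2, ?_⟩, ?_⟩
        · rw [Module.End.mem_maxGenEigenspace]
          refine ⟨n, ?_⟩
          have := hfpow n x
          rw [hn] at this
          exact this.symm
        · have hsum : (x : V) + (y : V) = u := by
            have := congrArg (fun z : U => (z : V)) hxy
            simpa using this
          have : Φ u = Φ (x : V) + Φ (y : V) := by rw [← hsum, map_add]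
          rw [hΦy, add_zero] at this
          rw [← this, hu]
    have hU₁eq : U₁ = U := by
      apply Submodule.eq_of_le_of_finrank_le hU₁le
      exact hmin U₁ hQU₁
    intro v hv
    have hv1 : v ∈ U₁ := hU₁eq ▸ hv
    have hv2 := (Submodule.mem_inf.mp hv1).2
    rw [Module.End.mem_maxGenEigenspace] at hv2
    exact hv2
  obtain ⟨v, -, hv0, hv⟩ := exists_common_eigenvector_of_locally_nilpotent S hS a U
    inferInstance hUne hstab hnil
  exact ⟨v, hv0, hv⟩

end LemmaB

section Family

variable {K W ι J : Type*} [Field K] [Finite J]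
  {V : J → Type*} [∀ j, AddCommGroup (V j)] [∀ j, Module K (V j)]
  [∀ j, FiniteDimensional K (V j)] [AddCommGroup W] [Module K W]

/-- **Eigenvector descent, finite family.**  If a nonzero simultaneous eigenvector `h` of the
`T i` lies in the sum of the ranges of finitely many equivariant maps `Φ j : V j → W`
(each `V j` finite-dimensional with commuting operators `S j i`), then the same eigensystem
occurs in one of the `V j`. -/
theorem exists_eigenvector_of_equivariant_family
    (S : ∀ j, ι → Module.End K (V j)) (T : ι → Module.End K W)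
    (hS : ∀ j i i', Commute (S j i) (S j i'))
    (Φ : ∀ j, V j →ₗ[K] W) (hΦ : ∀ j i v, Φ j (S j i v) = T i (Φ j v))
    (a : ι → K) {h : W} (hh : h ≠ 0) (hmem : h ∈ ⨆ j, LinearMap.range (Φ j))
    (heig : ∀ i, T i h = a i • h) :
    ∃ j, ∃ v : V j, v ≠ 0 ∧ ∀ i, S j i v = a i • v := by
  classical
  have : Fintype J := Fintype.ofFinite J
  -- the product space
  let Stot : ι → Module.End K (∀ j, V j) := fun i =>
    LinearMap.pi (fun j => (S j i).comp (LinearMap.proj j))
  let Φtot : (∀ j, V j) →ₗ[K] W := ∑ j, (Φ j).comp (LinearMap.proj j)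
  have hStot_apply : ∀ i (v : ∀ j, V j) j, Stot i v j = S j i (v j) := fun i v j => rfl
  have hΦtot_apply : ∀ v : ∀ j, V j, Φtot v = ∑ j, Φ j (v j) := by
    intro v
    simp [Φtot, LinearMap.sum_apply]
  have hcomm : ∀ i i', Commute (Stot i) (Stot i') := by
    intro i i'
    apply LinearMap.ext
    intro v
    funext j
    have := congrArg (fun g : Module.End K (V j) => g (v j)) (hS j i i').eq
    simpa [Module.End.mul_apply, hStot_apply] using this
  have hequiv : ∀ i v, Φtot (Stot i v) = T i (Φtot v) := by
    intro i v
    rw [hΦtot_apply, hΦtot_apply, map_sum]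
    exact Finset.sum_congr rfl (fun j _ => by rw [hStot_apply, hΦ])
  have hrange : h ∈ LinearMap.range Φtot := by
    have hle : (⨆ j, LinearMap.range (Φ j)) ≤ LinearMap.range Φtot := by
      apply iSup_le
      rintro j _ ⟨v, rfl⟩
      refine ⟨Pi.single j v, ?_⟩
      rw [hΦtot_apply, Finset.sum_eq_single j]
      · simp
      · intro j' _ hj'
        simp [Pi.single_eq_of_ne hj']
      · intro hj
        exact absurd (Finset.mem_univ j) hj
    exact hle hmem
  obtain ⟨v, hv0, hv⟩ := exists_eigenvector_of_equivariant Stot T hcomm Φtot hequiv a hh hrange heig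
  have hex : ∃ j, v j ≠ 0 := by
    by_contra hcon
    push Not at hcon
    exact hv0 (funext hcon)
  obtain ⟨j, hj⟩ := hex
  refine ⟨j, v j, hj, fun i => ?_⟩
  have := congrFun (hv i) j
  simpa [hStot_apply] using this

end Family

end Fermat.Agent.Lib.Newform.H443
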