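/-
NEWFORM library (helper443) — STRONG MULTIPLICITY ONE from the MAIN LEMMA.

Prelude language: `CuspForm (Gamma0 N) 2`, `CuspForm.heckeTLin`, `ModularFormClass.qCoeff`,
`CuspForm.IsNewform` (= normalised eigenform whose good eigensystem does not occur at a proper
divisor level).

* `qCoeff_eq_of_prime_eq` : two normalised eigenforms (levels dividing `D`) with the same `a_ℓ`
  at all primes `ℓ ∤ D` have the same `a_n` for all `n` coprime to `D`.
* `IsNewform.eq_zero_of_mem_old` : let `Φ j : S₂(Γ₀(M j)) → S₂(Γ₀(N))` (`j` in a finite type,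
  `M j ∣ N`, `M j ≠ N`) be linear maps commuting with `T_ℓ`, `ℓ ∤ N`.  A common eigenvector of the
  `T_ℓ`, `ℓ ∤ N`, with the eigenvalues of a NEWFORM `f` of level `N`, which lies in
  `⨆ j, range (Φ j)` ("old space"), is zero.
* `IsNewform.eq_of_mainLemma` : **strong multiplicity one at level `N`**, given the main lemma
  in the form "`a_n(h) = 0` for all `n` coprime to `N` ⟹ `h ∈ ⨆ j, range (Φ j)`":
  a normalised eigenform `g` of level `N` with `a_ℓ(g) = a_ℓ(f)` for all primes `ℓ ∤ N`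
  equals the newform `f`.
* `IsNewform.eq_smul_of_mainLemma` : the good eigenspace of a newform is the line `ℂ f`.
-/
import Fermat.Agent.Lib.Newform.H443.EigenDescent
import Fermat.Agent.Lib.Newform.H683.Eigen
import Fermat.Agent.Lib.Newform.H863.Minimal
import Fermat.Prelude.Thm_CuspForm_heckeTLin_comm

set_option autoImplicit false

open CuspForm CongruenceSubgroup ModularFormClass

namespace Fermat.Agent.Lib.Newform.H443

/-- The coefficients `a_{p^r}`, `p ∤ N, N'`, of normalised eigenforms are determined by `a_p`. -/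
theorem qCoeff_prime_pow_eq {N N' : ℕ} {f : CuspForm (Gamma0 N) 2} {g : CuspForm (Gamma0 N') 2}
    (hf : f.IsNormalizedEigenform) (hg : g.IsNormalizedEigenform) {p : ℕ} (hp : p.Prime)
    (hpN : ¬ p ∣ N) (hpN' : ¬ p ∣ N') (h : qCoeff g p = qCoeff f p) :
    ∀ r : ℕ, qCoeff g (p ^ r) = qCoeff f (p ^ r) := by
  have key : ∀ r : ℕ, qCoeff g (p ^ r) = qCoeff f (p ^ r) ∧
      qCoeff g (p ^ (r + 1)) = qCoeff f (p ^ (r + 1)) := by
    intro r
    induction r with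
    | zero =>
      refine ⟨?_, ?_⟩
      · rw [pow_zero, hf.qCoeff_one, hg.qCoeff_one]
      · simpa using h
    | succ r ih =>
      refine ⟨ih.2, ?_⟩
      rw [hf.qCoeff_prime_pow_of_not_dvd p r hp hpN, hg.qCoeff_prime_pow_of_not_dvd p r hp hpN',
        h, ih.1, ih.2]
  exact fun r => (key r).1

/-- Two normalised eigenforms of levels dividing `D` with the same `a_ℓ` at all primes `ℓ ∤ D`
have the same `a_n` for all `n` coprime to `D`. -/
theorem qCoeff_eq_of_prime_eq {N N' D : ℕ} (hND : N ∣ D) (hN'D : N' ∣ D)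
    {f : CuspForm (Gamma0 N) 2} {g : CuspForm (Gamma0 N') 2}
    (hf : f.IsNormalizedEigenform) (hg : g.IsNormalizedEigenform)
    (h : ∀ ℓ : ℕ, ℓ.Prime → ¬ ℓ ∣ D → qCoeff g ℓ = qCoeff f ℓ) :
    ∀ n : ℕ, n.Coprime D → qCoeff g n = qCoeff f n := by
  intro n
  induction n using Nat.strong_induction_on with
  | _ n ih =>
    intro hn
    rcases Nat.eq_zero_or_pos n with rfl | hpos
    · rw [Fermat.Agent.Lib.Newform.H683.qCoeff_zero_cusp, Fermat.Agent.Lib.Newform.H683.qCoeff_zero_cusp]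
    rcases Nat.eq_or_lt_of_le (Nat.succ_le_of_lt hpos) with h1 | h1
    · have : n = 1 := h1.symm
      subst this
      rw [hf.qCoeff_one, hg.qCoeff_one]
    · -- `n ≥ 2`: split off a prime power
      obtain ⟨p, hp, hpn⟩ := Nat.exists_prime_and_dvd (show n ≠ 1 by omega)
      obtain ⟨r, m, hm, rfl⟩ := Nat.exists_eq_pow_mul_and_not_dvd hpos.ne' p hp.ne_one
      have hr : r ≠ 0 := by
        rintro rfl
        rw [pow_zero, one_mul] at hpn
        exact hm hpn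
      have hcop : (p ^ r).Coprime m :=
        Nat.Coprime.pow_left r ((Nat.Prime.coprime_iff_not_dvd hp).mpr hm)
      have hpD : ¬ p ∣ D := by
        intro hpD
        have h2 : p ∣ Nat.gcd (p ^ r * m) D :=
          Nat.dvd_gcd (Dvd.dvd.mul_right (dvd_pow_self p hr) m) hpD
        rw [Nat.Coprime] at hn
        rw [hn] at h2
        exact hp.one_lt.ne' (Nat.dvd_one.mp h2)
      have hmD : m.Coprime D := Nat.Coprime.coprime_dvd_left (Dvd.intro_left _ rfl) hn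
      have hmlt : m < p ^ r * m := by
        have hmpos : 0 < m := Nat.pos_of_ne_zero (by rintro rfl; simp at hpos)
        have : 1 < p ^ r := Nat.one_lt_pow hr hp.one_lt
        nlinarith
      rw [hf.qCoeff_mul_of_coprime _ _ hcop, hg.qCoeff_mul_of_coprime _ _ hcop,
        ih m hmlt hmD,
        qCoeff_prime_pow_eq hf hg hp (fun hd => hpD (hd.trans hND))
          (fun hd => hpD (hd.trans hN'D)) (h p hp hpD) r]

section Old

variable {N : ℕ} [NeZero N] {J : Type*} [Finite J] (M : J → ℕ) (hMN : ∀ j, M j ∣ N)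
  (Φ : ∀ j, CuspForm (Gamma0 (M j)) 2 →ₗ[ℂ] CuspForm (Gamma0 N) 2)

/-- **No newform eigensystem in the old space.**  Let `Φ j : S₂(Γ₀(M j)) → S₂(Γ₀(N))` be finitely
many linear maps from proper divisor levels commuting with the `T_ℓ`, `ℓ ∤ N`.  If `f` is a
newform of level `N` and `h ∈ ⨆ j, range (Φ j)` satisfies `T_ℓ h = a_ℓ(f) h` for all primes
`ℓ ∤ N`, then `h = 0`. -/
theorem IsNewform.eq_zero_of_mem_old {f : CuspForm (Gamma0 N) 2} (hf : f.IsNewform)
    (hne : ∀ j, M j ≠ N)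
    (hΦ : ∀ j (ℓ : ℕ) (hℓ : ℓ.Prime) (hℓN : ¬ ℓ ∣ N) (v : CuspForm (Gamma0 (M j)) 2),
      Φ j (heckeTLin 2 hℓ (fun hd => hℓN (hd.trans (hMN j))) v) = heckeTLin 2 hℓ hℓN (Φ j v))
    (h : CuspForm (Gamma0 N) 2) (hmem : h ∈ ⨆ j, LinearMap.range (Φ j))
    (heig : ∀ (ℓ : ℕ) (hℓ : ℓ.Prime) (hℓN : ¬ ℓ ∣ N), heckeTLin 2 hℓ hℓN h = qCoeff f ℓ • h) :
    h = 0 := by
  by_contra hh
  have hM0 : ∀ j, NeZero (M j) := fun j =>
    ⟨fun h0 => NeZero.ne N (Nat.eq_zero_of_zero_dvd (h0 ▸ hMN j))⟩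
  have : ∀ j, FiniteDimensional ℂ (CuspForm (Gamma0 (M j)) 2) := fun j =>
    have := hM0 j
    Fermat.Agent.Lib.Newform.H863.finiteDimensional_cuspForm (M j)
  -- the operators, indexed by the good primes
  let ι : Type := {ℓ : ℕ // ℓ.Prime ∧ ¬ ℓ ∣ N}
  let S : ∀ j, ι → Module.End ℂ (CuspForm (Gamma0 (M j)) 2) := fun j ℓ =>
    heckeTLin 2 ℓ.2.1 (fun hd => ℓ.2.2 (hd.trans (hMN j)))
  let T : ι → Module.End ℂ (CuspForm (Gamma0 N) 2) := fun ℓ => heckeTLin 2 ℓ.2.1 ℓ.2.2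
  obtain ⟨j, v, hv0, hv⟩ := exists_eigenvector_of_equivariant_family S T
    (fun j ℓ ℓ' => CuspForm.heckeTLin_comm 2 _ _ _ _) Φ
    (fun j ℓ v => hΦ j ℓ.1 ℓ.2.1 ℓ.2.2 v) (fun ℓ => qCoeff f ℓ.1) hh hmem
    (fun ℓ => heig ℓ.1 ℓ.2.1 ℓ.2.2)
  exact hv0 (Fermat.Agent.Lib.Newform.H863.IsNewform.eq_zero_of_eigenvector (hMN j) (hne j) hf v
    (fun ℓ hℓ hℓN => hv ⟨ℓ, hℓ, hℓN⟩))

/-- **Strong multiplicity one at level `N`, from the main lemma.**  Assume the main lemma in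
the form: every `h ∈ S₂(Γ₀(N))` with `a_n(h) = 0` for all `n` coprime to `N` lies in the old
space `⨆ j, range (Φ j)`.  Then a `T_ℓ`-eigenvector (`ℓ ∤ N`) with the eigenvalues of a newform
`f` of level `N` is a multiple of `f`. -/
theorem IsNewform.eq_smul_of_mainLemma {f : CuspForm (Gamma0 N) 2} (hf : f.IsNewform)
    (hne : ∀ j, M j ≠ N)
    (hΦ : ∀ j (ℓ : ℕ) (hℓ : ℓ.Prime) (hℓN : ¬ ℓ ∣ N) (v : CuspForm (Gamma0 (M j)) 2),
      Φ j (heckeTLin 2 hℓ (fun hd => hℓN (hd.trans (hMN j))) v) = heckeTLin 2 hℓ hℓN (Φ j v))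
    (hmain : ∀ h : CuspForm (Gamma0 N) 2, (∀ n : ℕ, n.Coprime N → qCoeff h n = 0) →
      h ∈ ⨆ j, LinearMap.range (Φ j))
    (g : CuspForm (Gamma0 N) 2)
    (heig : ∀ (ℓ : ℕ) (hℓ : ℓ.Prime) (hℓN : ¬ ℓ ∣ N), heckeTLin 2 hℓ hℓN g = qCoeff f ℓ • g) :
    g = qCoeff g 1 • f := by
  have hfeig : ∀ (ℓ : ℕ) (hℓ : ℓ.Prime) (hℓN : ¬ ℓ ∣ N),
      heckeTLin 2 hℓ hℓN f = qCoeff f ℓ • f := fun ℓ hℓ hℓN =>
    Fermat.Agent.Lib.Newform.H683.heckeTLin_eq_of_eigenform hf.1 hℓ hℓN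
  set h : CuspForm (Gamma0 N) 2 := g - qCoeff g 1 • f with hh
  have hheig : ∀ (ℓ : ℕ) (hℓ : ℓ.Prime) (hℓN : ¬ ℓ ∣ N),
      heckeTLin 2 hℓ hℓN h = qCoeff f ℓ • h := by
    intro ℓ hℓ hℓN
    rw [hh, map_sub, map_smul, heig ℓ hℓ hℓN, hfeig ℓ hℓ hℓN, smul_sub, smul_comm]
  -- the coefficients of `h` prime to `N` vanish
  have hcoeff1 : qCoeff h 1 = 0 := by
    rw [hh, Fermat.Agent.Lib.Newform.H683.qCoeff_sub_cusp,
      Fermat.Agent.Lib.Newform.H683.qCoeff_smul_cusp, hf.1.qCoeff_one, mul_one, sub_self]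
  have hstep : ∀ (ℓ : ℕ) (hℓ : ℓ.Prime) (hℓN : ¬ ℓ ∣ N) (n : ℕ), ¬ ℓ ∣ n →
      qCoeff h (n * ℓ) = qCoeff f ℓ * qCoeff h n := by
    intro ℓ hℓ hℓN n hn
    have h1 := congrArg (fun F : CuspForm (Gamma0 N) 2 => qCoeff (⇑F) n) (hheig ℓ hℓ hℓN)
    beta_reduce at h1
    rw [Fermat.Agent.Lib.Newform.H683.qCoeff_smul_cusp, CuspForm.coe_heckeTLin_apply,
      Fermat.Agent.Lib.Newform.H683.qCoeff_heckeT_cusp 2 h hℓ.ne_zero,
      ModularForm.coeffHeckeT_apply, if_neg hn, add_zero] at h1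
    exact h1
  have hstep2 : ∀ (ℓ : ℕ) (hℓ : ℓ.Prime) (hℓN : ¬ ℓ ∣ N) (n : ℕ), ℓ ∣ n →
      qCoeff h (n * ℓ) = qCoeff f ℓ * qCoeff h n - (ℓ : ℂ) * qCoeff h (n / ℓ) := by
    intro ℓ hℓ hℓN n hn
    have h1 := congrArg (fun F : CuspForm (Gamma0 N) 2 => qCoeff (⇑F) n) (hheig ℓ hℓ hℓN)
    beta_reduce at h1
    rw [Fermat.Agent.Lib.Newform.H683.qCoeff_smul_cusp, CuspForm.coe_heckeTLin_apply,
      Fermat.Agent.Lib.Newform.H683.qCoeff_heckeT_cusp 2 h hℓ.ne_zero,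
      ModularForm.coeffHeckeT_apply, if_pos hn] at h1
    rw [← h1]
    norm_num
  have hzero : ∀ n : ℕ, n.Coprime N → qCoeff h n = 0 := by
    intro n
    induction n using Nat.strong_induction_on with
    | _ n ih =>
      intro hn
      rcases Nat.eq_zero_or_pos n with rfl | hpos
      · exact Fermat.Agent.Lib.Newform.H683.qCoeff_zero_cusp 2 h
      rcases Nat.eq_or_lt_of_le (Nat.succ_le_of_lt hpos) with h1 | h1
      · have : n = 1 := h1.symm
        subst this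
        exact hcoeff1
      · obtain ⟨p, hp, hpn⟩ := Nat.exists_prime_and_dvd (show n ≠ 1 by omega)
        obtain ⟨m, rfl⟩ := hpn
        have hmpos : 0 < m := Nat.pos_of_ne_zero (by rintro rfl; simp at hpos)
        have hpN : ¬ p ∣ N := by
          intro hpN
          have h2 : p ∣ Nat.gcd (p * m) N := Nat.dvd_gcd (Dvd.intro _ rfl) hpN
          rw [Nat.Coprime] at hn
          rw [hn] at h2
          exact hp.one_lt.ne' (Nat.dvd_one.mp h2)
        have hmN : m.Coprime N := Nat.Coprime.coprime_dvd_left (Dvd.intro_left _ rfl) hn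
        have hmlt : m < p * m := by
          have := hp.one_lt
          nlinarith
        rw [mul_comm p m]
        by_cases hpm : p ∣ m
        · rw [hstep2 p hp hpN m hpm, ih m hmlt hmN, mul_zero, zero_sub, neg_eq_zero]
          have hdlt : m / p < p * m :=
            lt_of_le_of_lt (Nat.div_le_self m p) hmlt
          have hdN : (m / p).Coprime N :=
            Nat.Coprime.coprime_dvd_left (Nat.div_dvd_of_dvd hpm) hmN
          rw [ih (m / p) hdlt hdN, mul_zero]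
        · rw [hstep p hp hpN m hpm, ih m hmlt hmN, mul_zero]
  have h0 : h = 0 := IsNewform.eq_zero_of_mem_old M hMN Φ hf hne hΦ h (hmain h hzero) hheig
  exact sub_eq_zero.mp h0

/-- **Strong multiplicity one at level `N`, from the main lemma** (normalised form): a normalised
eigenform `g` of level `N` with the good eigenvalues of a newform `f` of level `N` equals `f`. -/
theorem IsNewform.eq_of_mainLemma {f : CuspForm (Gamma0 N) 2} (hf : f.IsNewform)
    (hne : ∀ j, M j ≠ N)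
    (hΦ : ∀ j (ℓ : ℕ) (hℓ : ℓ.Prime) (hℓN : ¬ ℓ ∣ N) (v : CuspForm (Gamma0 (M j)) 2),
      Φ j (heckeTLin 2 hℓ (fun hd => hℓN (hd.trans (hMN j))) v) = heckeTLin 2 hℓ hℓN (Φ j v))
    (hmain : ∀ h : CuspForm (Gamma0 N) 2, (∀ n : ℕ, n.Coprime N → qCoeff h n = 0) →
      h ∈ ⨆ j, LinearMap.range (Φ j))
    {g : CuspForm (Gamma0 N) 2} (hg : g.IsNormalizedEigenform)
    (hgf : ∀ ℓ : ℕ, ℓ.Prime → ¬ ℓ ∣ N → qCoeff g ℓ = qCoeff f ℓ) :
    g = f := by
  have := IsNewform.eq_smul_of_mainLemma M hMN Φ hf hne hΦ hmain g (fun ℓ hℓ hℓN => by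
    rw [Fermat.Agent.Lib.Newform.H683.heckeTLin_eq_of_eigenform hg hℓ hℓN, hgf ℓ hℓ hℓN])
  rw [hg.qCoeff_one, one_smul] at this
  exact this

end Old

end Fermat.Agent.Lib.Newform.H443
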