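/-
NEWFORM library (helper443) — **ASSEMBLY**: `OldEigen`, `MultOne`, `MultOneEigen`
(exact bodies of the row-lead's `H23/Spec.lean`), UNCONDITIONAL.

Inputs (all on main): `H803.mainLemma` (Atkin–Lehner main lemma), `H863.raiseLin` (degeneracy
maps, `T_ℓ`-equivariant), `H443.exists_eigenvector_of_equivariant_family` (eigenvector descent),
`H683.exists_normalizedEigenform_of_eigenvector` (extraction).

* `oldMap N p : S₂(Γ₀(N/p)) →ₗ S₂(Γ₀(N))`, `p ∈ N.primeFactors`: the map `B_p`.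
* `oldEigen`      : body of `H23.OldEigen`.
* `multOne`       : body of `H23.MultOne`: the good eigenspace of a Prelude-newform is a line.
* `multOneEigen`  : body of `H23.MultOneEigen`: strong multiplicity one at level `N`.
* `IsNewform.qCoeff_eq` : corollary, all coefficients agree.
-/
import Fermat.Agent.Lib.Newform.H443.SMOCore
import Fermat.Agent.Lib.Newform.H683.Extract
import Fermat.Agent.Lib.Newform.H863.Raise
import Fermat.Agent.Lib.Newform.H863.OldForms
import Fermat.Agent.Lib.Newform.H803.MainLemma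

set_option autoImplicit false

open CuspForm CongruenceSubgroup ModularFormClass UpperHalfPlane

namespace Fermat.Agent.Lib.Newform.H443

/-- `T_ℓ` commutes with the raising maps `B_d : S(M) → S(C)`, `ℓ ∤ C`. -/
theorem heckeTLin_raiseLin {M d C ℓ : ℕ} [NeZero d] (h : d * M ∣ C) (hℓ : ℓ.Prime)
    (hℓC : ¬ ℓ ∣ C) (g : CuspForm (Gamma0 M) 2) :
    heckeTLin 2 hℓ hℓC (Fermat.Agent.Lib.Newform.H863.raiseLin h g) =
      Fermat.Agent.Lib.Newform.H863.raiseLin h
        (heckeTLin 2 hℓ (fun hd => hℓC ((hd.mul_left d).trans h)) g) := by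
  have hMd : M * d ∣ C := Fermat.Agent.Lib.Newform.H863.raise_dvd h
  change heckeTLin 2 hℓ hℓC (Fermat.Agent.Lib.Newform.H863.levelIncl hMd
      (Fermat.Agent.Lib.Newform.H863.degen d g)) =
    Fermat.Agent.Lib.Newform.H863.levelIncl hMd (Fermat.Agent.Lib.Newform.H863.degen d _)
  rw [Fermat.Agent.Lib.Newform.H863.heckeTLin_levelIncl hMd hℓ hℓC,
    Fermat.Agent.Lib.Newform.H863.heckeTLin_degen hℓ (fun hd => hℓC (hd.trans hMd)) g]

section OldMap

variable (N : ℕ)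

/-- The degeneracy map `B_p : S₂(Γ₀(N/p)) → S₂(Γ₀(N))` for a prime factor `p` of `N`. -/
noncomputable def oldMap (p : N.primeFactors) :
    CuspForm (Gamma0 (N / p.1)) 2 →ₗ[ℂ] CuspForm (Gamma0 N) 2 :=
  haveI : NeZero p.1 := ⟨(Nat.prime_of_mem_primeFactors p.2).ne_zero⟩
  Fermat.Agent.Lib.Newform.H863.raiseLin (d := p.1) (M := N / p.1) (C := N)
    (by rw [Nat.mul_div_cancel' (Nat.dvd_of_mem_primeFactors p.2)])

theorem qCoeff_oldMap (p : N.primeFactors) (g : CuspForm (Gamma0 (N / p.1)) 2) (n : ℕ) :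
    qCoeff ⇑(oldMap N p g) n = if p.1 ∣ n then qCoeff ⇑g (n / p.1) else 0 := by
  have : NeZero p.1 := ⟨(Nat.prime_of_mem_primeFactors p.2).ne_zero⟩
  exact Fermat.Agent.Lib.Newform.H863.qCoeff_raiseLin _ g n

theorem oldMap_apply (p : N.primeFactors) (g : CuspForm (Gamma0 (N / p.1)) 2) (τ : ℍ) :
    oldMap N p g τ = g (ModularForm.heckeDiagMatrix p.1 • τ) := by
  have : NeZero p.1 := ⟨(Nat.prime_of_mem_primeFactors p.2).ne_zero⟩
  exact Fermat.Agent.Lib.Newform.H863.raiseLin_apply _ g τ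

theorem div_dvd_of_mem (p : N.primeFactors) : N / p.1 ∣ N :=
  Nat.div_dvd_of_dvd (Nat.dvd_of_mem_primeFactors p.2)

theorem div_ne_of_mem [NeZero N] (p : N.primeFactors) : N / p.1 ≠ N :=
  (Nat.div_lt_self (Nat.pos_of_ne_zero (NeZero.ne N))
    (Nat.prime_of_mem_primeFactors p.2).one_lt).ne

theorem heckeTLin_oldMap (p : N.primeFactors) {ℓ : ℕ} (hℓ : ℓ.Prime) (hℓN : ¬ ℓ ∣ N)
    (g : CuspForm (Gamma0 (N / p.1)) 2) :
    oldMap N p (heckeTLin 2 hℓ (fun hd => hℓN (hd.trans (div_dvd_of_mem N p))) g) =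
      heckeTLin 2 hℓ hℓN (oldMap N p g) := by
  have : NeZero p.1 := ⟨(Nat.prime_of_mem_primeFactors p.2).ne_zero⟩
  exact (heckeTLin_raiseLin _ hℓ hℓN g).symm

/-- A form given by an "old" `q`-expansion lies in the sum of the ranges of the `B_p`. -/
theorem mem_iSup_range_oldMap_of_qCoeff (h : CuspForm (Gamma0 N) 2)
    (g : (p : ℕ) → CuspForm (Gamma0 (N / p)) 2)
    (hg : ∀ n : ℕ, qCoeff h n =
      ∑ p ∈ N.primeFactors, if p ∣ n then qCoeff (g p) (n / p) else 0) :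
    h ∈ ⨆ p : N.primeFactors, LinearMap.range (oldMap N p) := by
  have hsum : h = ∑ p : N.primeFactors, oldMap N p (g p.1) := by
    apply Fermat.Agent.Lib.Newform.H683.cusp_ext_qCoeff
    intro n
    have h1 : qCoeff ⇑(∑ p : N.primeFactors, oldMap N p (g p.1)) n =
        ∑ p : N.primeFactors, qCoeff ⇑(oldMap N p (g p.1)) n := by
      exact map_sum (Fermat.Agent.Lib.Newform.H683.coeffLin N 2 n)
        (fun p : N.primeFactors => oldMap N p (g p.1)) Finset.univ
    rw [h1, hg n, ← Finset.sum_coe_sort N.primeFactors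
      (fun p => if p ∣ n then qCoeff (g p) (n / p) else 0)]
    exact Finset.sum_congr rfl (fun p _ => (qCoeff_oldMap N p (g p.1) n).symm)
  rw [hsum]
  exact Submodule.sum_mem _ (fun p _ =>
    Submodule.mem_iSup_of_mem p (LinearMap.mem_range_self _ _))

/-- **Main lemma**, submodule form: a form of level `N` with `a_n = 0` for all `n` prime to `N`
lies in the sum of the ranges of the `B_p`, `p ∣ N`. -/
theorem mem_iSup_range_oldMap [NeZero N] (h : CuspForm (Gamma0 N) 2)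
    (hh : ∀ n : ℕ, n.Coprime N → qCoeff h n = 0) :
    h ∈ ⨆ p : N.primeFactors, LinearMap.range (oldMap N p) := by
  obtain ⟨g, hg⟩ := Fermat.Agent.Lib.Newform.H803.mainLemma N 2 h hh
  have hsum : h = ∑ p : N.primeFactors, oldMap N p (g p.1) := by
    apply DFunLike.coe_injective
    funext τ
    have h1 : (⇑(∑ p : N.primeFactors, oldMap N p (g p.1)) : ℍ → ℂ) τ =
        ∑ p : N.primeFactors, (oldMap N p (g p.1)) τ := by
      have hgen : ∀ s : Finset N.primeFactors,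
          (⇑(∑ p ∈ s, oldMap N p (g p.1)) : ℍ → ℂ) τ = ∑ p ∈ s, (oldMap N p (g p.1)) τ := by
        intro s
        classical
        induction s using Finset.induction_on with
        | empty => simp
        | insert a s ha ih =>
          rw [Finset.sum_insert ha, Finset.sum_insert ha, FunLike.coe_add, Pi.add_apply, ih]
      exact hgen Finset.univ
    rw [h1, hg τ, ← Finset.sum_coe_sort N.primeFactors
      (fun p => (g p) (ModularForm.heckeDiagMatrix p • τ))]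
    exact Finset.sum_congr rfl (fun p _ => (oldMap_apply N p (g p.1) τ).symm)
  rw [hsum]
  exact Submodule.sum_mem _ (fun p _ =>
    Submodule.mem_iSup_of_mem p (LinearMap.mem_range_self _ _))

end OldMap

/-- **OLD-EIGEN** (body of `H23.OldEigen`): a nonzero eigenvector of the `T_ℓ`, `ℓ ∤ N`, which is
a sum of forms `B_p g_p` has its eigensystem at some level `N / p`. -/
theorem oldEigen :
    ∀ (N : ℕ) [NeZero N] (h : CuspForm (Gamma0 N) 2), h ≠ 0 → ∀ a : ℕ → ℂ,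
      (∀ (ℓ : ℕ) (hℓ : ℓ.Prime) (hℓN : ¬ ℓ ∣ N), CuspForm.heckeTLin 2 hℓ hℓN h = a ℓ • h) →
      (∃ g : (p : ℕ) → CuspForm (Gamma0 (N / p)) 2, ∀ n : ℕ,
        qCoeff h n = ∑ p ∈ N.primeFactors, if p ∣ n then qCoeff (g p) (n / p) else 0) →
      ∃ p : ℕ, p.Prime ∧ p ∣ N ∧ ∃ G : CuspForm (Gamma0 (N / p)) 2, G.IsNormalizedEigenform ∧
        ∀ ℓ : ℕ, ℓ.Prime → ¬ ℓ ∣ N → qCoeff G ℓ = a ℓ := by
  intro N _ h hh a heig ⟨g, hg⟩
  have hmem := mem_iSup_range_oldMap_of_qCoeff N h g hg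
  have hM0 : ∀ p : N.primeFactors, NeZero (N / p.1) := fun p =>
    ⟨fun h0 => NeZero.ne N (Nat.eq_zero_of_zero_dvd (h0 ▸ div_dvd_of_mem N p))⟩
  have : ∀ p : N.primeFactors, FiniteDimensional ℂ (CuspForm (Gamma0 (N / p.1)) 2) := fun p =>
    have := hM0 p
    Fermat.Agent.Lib.Newform.H683.finiteDimensional_cuspForm (N / p.1) 2
  let ι : Type := {ℓ : ℕ // ℓ.Prime ∧ ¬ ℓ ∣ N}
  let S : ∀ p : N.primeFactors, ι → Module.End ℂ (CuspForm (Gamma0 (N / p.1)) 2) := fun p ℓ =>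
    heckeTLin 2 ℓ.2.1 (fun hd => ℓ.2.2 (hd.trans (div_dvd_of_mem N p)))
  let T : ι → Module.End ℂ (CuspForm (Gamma0 N) 2) := fun ℓ => heckeTLin 2 ℓ.2.1 ℓ.2.2
  obtain ⟨p, v, hv0, hv⟩ := exists_eigenvector_of_equivariant_family S T
    (fun p ℓ ℓ' => CuspForm.heckeTLin_comm 2 _ _ _ _) (oldMap N)
    (fun p ℓ v => heckeTLin_oldMap N p ℓ.2.1 ℓ.2.2 v) (fun ℓ => a ℓ.1) hh hmem
    (fun ℓ => heig ℓ.1 ℓ.2.1 ℓ.2.2)
  have := hM0 p
  obtain ⟨G, hG, hGa⟩ := Fermat.Agent.Lib.Newform.H683.exists_normalizedEigenform_of_eigenvector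
    (M := N / p.1) (fun ℓ => ¬ ℓ ∣ N) a v hv0 (fun ℓ hℓ _ hℓN => by
      have h1 := hv ⟨ℓ, hℓ, hℓN⟩
      have h2 := congrArg (fun F : CuspForm (Gamma0 (N / p.1)) 2 => (⇑F : ℍ → ℂ)) h1
      simpa [S] using h2)
  exact ⟨p.1, Nat.prime_of_mem_primeFactors p.2, Nat.dvd_of_mem_primeFactors p.2, G, hG,
    fun ℓ hℓ hℓN => hGa ℓ hℓ (fun hd => hℓN (hd.trans (div_dvd_of_mem N p))) hℓN⟩

/-- **MULT-ONE** (body of `H23.MultOne`): the good eigenspace of a Prelude-newform is the line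
through it. -/
theorem multOne :
    ∀ (N : ℕ) [NeZero N] (f : CuspForm (Gamma0 N) 2), f.IsNewform →
      ∀ h : CuspForm (Gamma0 N) 2,
        (∀ (ℓ : ℕ) (hℓ : ℓ.Prime) (hℓN : ¬ ℓ ∣ N),
          CuspForm.heckeTLin 2 hℓ hℓN h = qCoeff f ℓ • h) →
        h = qCoeff h 1 • f := by
  intro N _ f hf h heig
  exact IsNewform.eq_smul_of_mainLemma (fun p : N.primeFactors => N / p.1) (div_dvd_of_mem N)
    (oldMap N) hf (div_ne_of_mem N) (fun p ℓ hℓ hℓN v => heckeTLin_oldMap N p hℓ hℓN v)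
    (mem_iSup_range_oldMap N) h heig

/-- **MULT-ONE'** (body of `H23.MultOneEigen`): strong multiplicity one at level `N`. -/
theorem multOneEigen :
    ∀ (N : ℕ) [NeZero N] (f g : CuspForm (Gamma0 N) 2), f.IsNewform → g.IsNormalizedEigenform →
      (∀ ℓ : ℕ, ℓ.Prime → ¬ ℓ ∣ N → qCoeff g ℓ = qCoeff f ℓ) → g = f := by
  intro N _ f g hf hg hgf
  exact IsNewform.eq_of_mainLemma (fun p : N.primeFactors => N / p.1) (div_dvd_of_mem N)
    (oldMap N) hf (div_ne_of_mem N) (fun p ℓ hℓ hℓN v => heckeTLin_oldMap N p hℓ hℓN v)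
    (mem_iSup_range_oldMap N) hg hgf

/-- Strong multiplicity one, coefficient form: a normalised eigenform of level `N` with the good
eigenvalues of a newform `f` of level `N` has ALL coefficients equal to those of `f`
(in particular at the primes `q ∣ N`). -/
theorem IsNewform.qCoeff_eq {N : ℕ} [NeZero N] {f g : CuspForm (Gamma0 N) 2} (hf : f.IsNewform)
    (hg : g.IsNormalizedEigenform)
    (hgf : ∀ ℓ : ℕ, ℓ.Prime → ¬ ℓ ∣ N → qCoeff g ℓ = qCoeff f ℓ) (n : ℕ) :
    qCoeff g n = qCoeff f n := by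
  rw [multOneEigen N f g hf hg hgf]

end Fermat.Agent.Lib.Newform.H443
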